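import Mathlib
import Fermat.Agent.S41.Spec.PD
import Fermat.Agent.S21.H585.Parabolic

/-!
# Row S41, block PD, leaf CUSP: basic facts on parabolic elements of `SL(2, ℤ)`

* `conjT_coe`        : entries of `h⁻¹ T^k h`;
* `isPosParabolic_conjT` / `exists_conjT_of_isPosParabolic` : positive parabolic `= h⁻¹ T^k h`, `k > 0`;
* `eq_T_zpow_or_neg_of_comm` : `b T^m = T^n b`, `n ≠ 0` implies `b = ± T^j` and `m = n`.
-/

set_option autoImplicit false

namespace Fermat.Agent.S41.H461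

open Matrix ModularGroup Matrix.SpecialLinearGroup
open Fermat.Agent.S41.Spec
open scoped MatrixGroups

theorem sl2_det_entries (h : SL(2, ℤ)) : h 0 0 * h 1 1 - h 0 1 * h 1 0 = 1 := by
  have := h.2
  rwa [Matrix.det_fin_two] at this

/-- Entries of `h⁻¹ T^k h`. -/
theorem conjT_coe (h : SL(2, ℤ)) (k : ℤ) :
    ((h⁻¹ * T ^ k * h : SL(2, ℤ)) : Matrix (Fin 2) (Fin 2) ℤ) =
      !![1 + k * h 1 0 * h 1 1, k * h 1 1 ^ 2; -(k * h 1 0 ^ 2), 1 - k * h 1 0 * h 1 1] := by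
  have hdet := sl2_det_entries h
  rw [Matrix.SpecialLinearGroup.coe_mul, Matrix.SpecialLinearGroup.coe_mul, coe_T_zpow,
    Matrix.SpecialLinearGroup.coe_inv, Matrix.adjugate_fin_two]
  ext i j
  fin_cases i <;> fin_cases j <;>
    simp only [Matrix.mul_apply, Fin.sum_univ_two, Matrix.of_apply, Matrix.cons_val',
      Matrix.cons_val_zero, Matrix.cons_val_one, Matrix.cons_val_fin_one, Fin.zero_eta,
      Fin.mk_one, Fin.isValue]
  · linear_combination (1 : ℤ) * hdet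
  · ring
  · ring
  · linear_combination (1 : ℤ) * hdet

theorem conjT_apply_zero_one (h : SL(2, ℤ)) (k : ℤ) :
    (h⁻¹ * T ^ k * h : SL(2, ℤ)) 0 1 = k * h 1 1 ^ 2 := by
  have := congrFun (congrFun (conjT_coe h k) 0) 1
  simpa using this

theorem conjT_apply_one_zero (h : SL(2, ℤ)) (k : ℤ) :
    (h⁻¹ * T ^ k * h : SL(2, ℤ)) 1 0 = -(k * h 1 0 ^ 2) := by
  have := congrFun (congrFun (conjT_coe h k) 1) 0
  simpa using this

theorem conjT_trace (h : SL(2, ℤ)) (k : ℤ) :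
    ((h⁻¹ * T ^ k * h : SL(2, ℤ)) : Matrix (Fin 2) (Fin 2) ℤ).trace = 2 := by
  rw [conjT_coe, Matrix.trace_fin_two_of]
  ring

theorem sl2_bottom_ne_zero (h : SL(2, ℤ)) : h 1 0 ≠ 0 ∨ h 1 1 ≠ 0 := by
  by_contra hcon
  rw [not_or, not_not, not_not] at hcon
  have hdet := sl2_det_entries h
  rw [hcon.1, hcon.2] at hdet
  simp at hdet

theorem conjT_ne_one (h : SL(2, ℤ)) {k : ℤ} (hk : k ≠ 0) : h⁻¹ * T ^ k * h ≠ 1 := by
  intro hcon
  have h01 := conjT_apply_zero_one h k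
  have h10 := conjT_apply_one_zero h k
  rw [hcon] at h01 h10
  simp only [Matrix.SpecialLinearGroup.coe_one, ne_eq, zero_ne_one, not_false_eq_true,
    Matrix.one_apply_ne, one_ne_zero] at h01 h10
  have hs : h 1 1 = 0 := by
    have : k * h 1 1 ^ 2 = 0 := h01.symm
    rcases mul_eq_zero.mp this with h' | h'
    · exact absurd h' hk
    · exact pow_eq_zero_iff (by norm_num) |>.mp h'
  have hr : h 1 0 = 0 := by
    have : k * h 1 0 ^ 2 = 0 := by linarith
    rcases mul_eq_zero.mp this with h' | h'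
    · exact absurd h' hk
    · exact pow_eq_zero_iff (by norm_num) |>.mp h'
  rcases sl2_bottom_ne_zero h with h' | h'
  · exact h' hr
  · exact h' hs

/-- `h⁻¹ T^k h` is positive parabolic for `k > 0`. -/
theorem isPosParabolic_conjT (h : SL(2, ℤ)) {k : ℤ} (hk : 0 < k) :
    IsPosParabolic (h⁻¹ * T ^ k * h) := by
  refine ⟨conjT_ne_one h hk.ne', conjT_trace h k, ?_, ?_⟩
  · rw [conjT_apply_zero_one]
    positivity
  · rw [conjT_apply_one_zero]
    have : 0 ≤ k * h 1 0 ^ 2 := by positivity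
    linarith

/-- If `h⁻¹ T^k h` is positive parabolic then `k > 0`. -/
theorem pos_of_isPosParabolic_conjT (h : SL(2, ℤ)) {k : ℤ}
    (hp : IsPosParabolic (h⁻¹ * T ^ k * h)) : 0 < k := by
  obtain ⟨hne, -, h01, h10⟩ := hp
  rw [conjT_apply_zero_one] at h01
  rw [conjT_apply_one_zero] at h10
  rcases lt_trichotomy k 0 with hk | hk | hk
  · exfalso
    rcases sl2_bottom_ne_zero h with h' | h'
    · have : 0 < h 1 0 ^ 2 := by positivity
      nlinarith
    · have : 0 < h 1 1 ^ 2 := by positivity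
      nlinarith
  · exfalso
    apply hne
    rw [hk, zpow_zero, mul_one, inv_mul_cancel]
  · exact hk

/-- Every positive parabolic element is `h⁻¹ T^k h` with `k > 0`. -/
theorem exists_conjT_of_isPosParabolic {g : SL(2, ℤ)} (hg : IsPosParabolic g) :
    ∃ (h : SL(2, ℤ)) (k : ℤ), 0 < k ∧ g = h⁻¹ * T ^ k * h := by
  obtain ⟨a, k, hak⟩ := Fermat.Agent.S21.H585.exists_mul_eq_mul_T_zpow g hg.2.1
  have hgk : g = a⁻¹⁻¹ * T ^ k * a⁻¹ := by
    rw [inv_inv, ← hak, mul_inv_cancel_right]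
  refine ⟨a⁻¹, k, ?_, hgk⟩
  apply pos_of_isPosParabolic_conjT a⁻¹
  rw [← hgk]
  exact hg

/-- An upper triangular element of `SL(2, ℤ)` is `± T^j`. -/
theorem eq_T_zpow_or_neg_of_apply_one_zero {b : SL(2, ℤ)} (hb : b 1 0 = 0) :
    ∃ j : ℤ, b = T ^ j ∨ b = -T ^ j := by
  have hdet := sl2_det_entries b
  rw [hb, mul_zero, sub_zero] at hdet
  rcases Int.eq_one_or_neg_one_of_mul_eq_one' hdet with ⟨h0, h1⟩ | ⟨h0, h1⟩
  · refine ⟨b 0 1, Or.inl ?_⟩
    apply Subtype.ext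
    rw [coe_T_zpow]
    ext i j
    fin_cases i <;> fin_cases j <;> simp [h0, h1, hb]
  · refine ⟨-b 0 1, Or.inr ?_⟩
    apply Subtype.ext
    rw [Matrix.SpecialLinearGroup.coe_neg, coe_T_zpow]
    ext i j
    fin_cases i <;> fin_cases j <;> simp [h0, h1, hb]

/-- `b T^m = T^n b` with `n ≠ 0` forces `b = ± T^j` and `m = n`. -/
theorem eq_T_zpow_or_neg_of_comm {b : SL(2, ℤ)} {m n : ℤ} (hn : n ≠ 0)
    (hb : b * T ^ m = T ^ n * b) : (∃ j : ℤ, b = T ^ j ∨ b = -T ^ j) ∧ m = n := by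
  have hdet := sl2_det_entries b
  have hM : (b : Matrix (Fin 2) (Fin 2) ℤ) * (T ^ m : SL(2, ℤ)) =
      (T ^ n : SL(2, ℤ)) * (b : Matrix (Fin 2) (Fin 2) ℤ) := by
    rw [← Matrix.SpecialLinearGroup.coe_mul, ← Matrix.SpecialLinearGroup.coe_mul, hb]
  rw [coe_T_zpow, coe_T_zpow] at hM
  have e00 := congrFun (congrFun hM 0) 0
  have e01 := congrFun (congrFun hM 0) 1
  simp only [Matrix.mul_apply, Fin.sum_univ_two, Matrix.of_apply, Matrix.cons_val',
    Matrix.cons_val_zero, Matrix.cons_val_one, Matrix.cons_val_fin_one, Fin.isValue] at e00 e01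
  have hr : b 1 0 = 0 := by
    have : n * b 1 0 = 0 := by linarith
    exact (mul_eq_zero.mp this).resolve_left hn
  refine ⟨eq_T_zpow_or_neg_of_apply_one_zero hr, ?_⟩
  rw [hr, mul_zero, sub_zero] at hdet
  rcases Int.eq_one_or_neg_one_of_mul_eq_one' hdet with ⟨h0, h1⟩ | ⟨h0, h1⟩
  · have h0' : (b : Matrix (Fin 2) (Fin 2) ℤ) 0 0 = 1 := h0
    have h1' : (b : Matrix (Fin 2) (Fin 2) ℤ) 1 1 = 1 := h1
    rw [h0', h1'] at e01
    linarith
  · have h0' : (b : Matrix (Fin 2) (Fin 2) ℤ) 0 0 = -1 := h0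
    have h1' : (b : Matrix (Fin 2) (Fin 2) ℤ) 1 1 = -1 := h1
    rw [h0', h1'] at e01
    linarith

end Fermat.Agent.S41.H461
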