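import Mathlib
import Fermat.Agent.S41.Spec.PD
import Fermat.Agent.S41.H461.CuspBasic

/-!
# Row S41, block PD, leaf CUSP-2: a `T`-orbit system is a cusp system

`tOrbitCusp : Spec.TOrbitCuspStatement`.
-/

set_option autoImplicit false

namespace Fermat.Agent.S41.H461

open ModularGroup Matrix.SpecialLinearGroup
open Fermat.Agent.S41.Spec
open scoped MatrixGroups

section

variable {Γ : Subgroup SL(2, ℤ)} {ι : Type} {γ : ι → Γ} {h : ι → SL(2, ℤ)} {w : ι → ℕ}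

theorem IsTOrbitSystem_conj_zpow (sys : IsTOrbitSystem Γ γ h w) (i : ι) (n : ℤ) :
    (((γ i) ^ n : Γ) : SL(2, ℤ)) = (h i)⁻¹ * T ^ ((w i : ℤ) * n) * h i := by
  have h1 : ((γ i : Γ) : SL(2, ℤ)) = (h i)⁻¹ * T ^ (w i : ℤ) * h i := by
    rw [sys.2.1 i, zpow_natCast]
  rw [Subgroup.coe_zpow, h1, zpow_mul]
  have : (h i)⁻¹ * T ^ (w i : ℤ) * h i = (h i)⁻¹ * T ^ (w i : ℤ) * (h i)⁻¹⁻¹ := by rw [inv_inv]
  rw [this, conj_zpow, inv_inv]

theorem IsTOrbitSystem_mem_of_dvd (sys : IsTOrbitSystem Γ γ h w) (i : ι) {n : ℤ}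
    (hn : (w i : ℤ) ∣ n) : (h i)⁻¹ * T ^ n * h i ∈ Γ := by
  obtain ⟨k, rfl⟩ := hn
  rw [← IsTOrbitSystem_conj_zpow sys i k]
  exact ((γ i) ^ k).2

/-- `T^n hᵢ Γ = T^(n mod wᵢ) hᵢ Γ`. -/
theorem IsTOrbitSystem_coset_mod (sys : IsTOrbitSystem Γ γ h w) (i : ι) (n : ℤ) :
    ((T ^ n * h i : SL(2, ℤ)) : SL(2, ℤ) ⧸ Γ) =
      ((T ^ (n % (w i : ℤ)).toNat * h i : SL(2, ℤ)) : SL(2, ℤ) ⧸ Γ) := by
  have hw : (0 : ℤ) < w i := by exact_mod_cast sys.1 i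
  have hmod : 0 ≤ n % (w i : ℤ) := Int.emod_nonneg _ hw.ne'
  rw [QuotientGroup.eq, ← zpow_natCast, Int.toNat_of_nonneg hmod]
  have : (T ^ n * h i)⁻¹ * (T ^ (n % (w i : ℤ)) * h i) =
      (h i)⁻¹ * T ^ ((w i : ℤ) * (-(n / (w i : ℤ)))) * h i := by
    have hn : n % (w i : ℤ) = n + (w i : ℤ) * (-(n / (w i : ℤ))) := by
      have := Int.emod_add_mul_ediv n (w i : ℤ)
      linarith
    rw [hn, zpow_add]
    group
  rw [this]
  exact IsTOrbitSystem_mem_of_dvd sys i (dvd_mul_right _ _)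

theorem IsTOrbitSystem_toNat_lt (sys : IsTOrbitSystem Γ γ h w) (i : ι) (n : ℤ) :
    (n % (w i : ℤ)).toNat < w i := by
  have hw : (0 : ℤ) < w i := by exact_mod_cast sys.1 i
  have hmod : 0 ≤ n % (w i : ℤ) := Int.emod_nonneg _ hw.ne'
  have hlt : n % (w i : ℤ) < w i := Int.emod_lt_of_pos _ hw
  omega

/-- Cosets `T^n hᵢ Γ = T^n' hᵢ' Γ` determine `i` and `n mod wᵢ`. -/
theorem IsTOrbitSystem_coset_inj (sys : IsTOrbitSystem Γ γ h w) {i i' : ι} {n n' : ℤ}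
    (hx : ((T ^ n * h i : SL(2, ℤ)) : SL(2, ℤ) ⧸ Γ) = ((T ^ n' * h i' : SL(2, ℤ)) : SL(2, ℤ) ⧸ Γ)) :
    i = i' ∧ (n % (w i : ℤ)).toNat = (n' % (w i' : ℤ)).toNat := by
  rw [IsTOrbitSystem_coset_mod sys i n, IsTOrbitSystem_coset_mod sys i' n'] at hx
  have huniq := (sys.2.2 ((T ^ (n % (w i : ℤ)).toNat * h i : SL(2, ℤ)) : SL(2, ℤ) ⧸ Γ)).unique
    (y₁ := ⟨i, ⟨(n % (w i : ℤ)).toNat, IsTOrbitSystem_toNat_lt sys i n⟩⟩)
    (y₂ := ⟨i', ⟨(n' % (w i' : ℤ)).toNat, IsTOrbitSystem_toNat_lt sys i' n'⟩⟩) rfl hx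
  have h1 : i = i' := congrArg Sigma.fst huniq
  subst h1
  refine ⟨rfl, ?_⟩
  have h2 := eq_of_heq (Sigma.mk.inj_iff.mp huniq).2
  exact congrArg Fin.val h2

theorem IsTOrbitSystem_dvd_of_mem (sys : IsTOrbitSystem Γ γ h w) (i : ι) {n : ℤ}
    (hn : (h i)⁻¹ * T ^ n * h i ∈ Γ) : (w i : ℤ) ∣ n := by
  have hx : ((T ^ (0 : ℤ) * h i : SL(2, ℤ)) : SL(2, ℤ) ⧸ Γ) =
      ((T ^ n * h i : SL(2, ℤ)) : SL(2, ℤ) ⧸ Γ) := by
    rw [QuotientGroup.eq, zpow_zero, one_mul, ← mul_assoc]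
    exact hn
  have hw : (0 : ℤ) < w i := by exact_mod_cast sys.1 i
  have h2 := (IsTOrbitSystem_coset_inj sys hx).2
  have hmod : 0 ≤ n % (w i : ℤ) := Int.emod_nonneg _ hw.ne'
  rw [Int.zero_emod] at h2
  have : n % (w i : ℤ) = 0 := by
    have h3 : ((n % (w i : ℤ)).toNat : ℤ) = 0 := by rw [← h2]; rfl
    rwa [Int.toNat_of_nonneg hmod] at h3
  exact Int.dvd_of_emod_eq_zero this

end

/-- (CUSP-2) a `T`-orbit system is a cusp system. -/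
theorem tOrbitCusp : TOrbitCuspStatement := by
  intro Γ _ hneg ι γ h w sys
  have hwpos : ∀ i, (0 : ℤ) < w i := fun i => by exact_mod_cast sys.1 i
  have hγ : ∀ i, ((γ i : Γ) : SL(2, ℤ)) = (h i)⁻¹ * T ^ (w i : ℤ) * h i := fun i => by
    rw [sys.2.1 i, zpow_natCast]
  have hpos : ∀ i, IsPosParabolic ((γ i : Γ) : SL(2, ℤ)) := fun i => by
    rw [hγ i]
    exact isPosParabolic_conjT (h i) (hwpos i)
  refine ⟨fun i => ⟨hpos i, ?_⟩, ?_⟩
  · -- primitivity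
    intro γ' k hγ' hk
    obtain ⟨a, m, hm, ha⟩ := exists_conjT_of_isPosParabolic hγ'
    -- `γ'^k = a⁻¹ T^(m k) a`
    have hk' : (h i)⁻¹ * T ^ (w i : ℤ) * h i = a⁻¹ * T ^ (m * k) * a := by
      rw [← hγ i, ← hk, Subgroup.coe_pow, ha, zpow_mul, zpow_natCast]
      have : a⁻¹ * T ^ m * a = a⁻¹ * T ^ m * a⁻¹⁻¹ := by rw [inv_inv]
      rw [this, conj_pow, inv_inv]
    -- `b = hᵢ a⁻¹` commutes
    have hcomm : (h i * a⁻¹) * T ^ (m * k) = T ^ (w i : ℤ) * (h i * a⁻¹) := by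
      have : T ^ (w i : ℤ) = h i * (a⁻¹ * T ^ (m * k) * a) * (h i)⁻¹ := by
        rw [← hk']; group
      rw [this]; group
    obtain ⟨⟨j, hj⟩, hmk⟩ := eq_T_zpow_or_neg_of_comm (hwpos i).ne' hcomm
    -- `γ' = hᵢ⁻¹ T^m hᵢ`
    have hγ'2 : (γ' : SL(2, ℤ)) = (h i)⁻¹ * T ^ m * h i := by
      have ha2 : a = (h i * a⁻¹)⁻¹ * h i := by group
      rcases hj with hj | hj
      · rw [hj] at ha2
        rw [ha, ha2]
        have : ((T ^ j)⁻¹ * h i)⁻¹ * T ^ m * ((T ^ j)⁻¹ * h i) =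
            (h i)⁻¹ * (T ^ j * T ^ m * (T ^ j)⁻¹) * h i := by group
        rw [this, ← zpow_add, ← zpow_neg, ← zpow_add]
        congr 3
        ring
      · rw [hj] at ha2
        rw [ha, ha2]
        have : ((-T ^ j)⁻¹ * h i)⁻¹ * T ^ m * ((-T ^ j)⁻¹ * h i) =
            (h i)⁻¹ * ((-T ^ j) * T ^ m * (-T ^ j)⁻¹) * h i := by group
        rw [this]
        have h3 : (-T ^ j) * T ^ m * (-T ^ j)⁻¹ = T ^ m := by
          rw [mul_inv_eq_iff_eq_mul, neg_mul, mul_neg, ← zpow_add, ← zpow_add, add_comm]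
        rw [h3]
    have hdvd : (w i : ℤ) ∣ m := by
      apply IsTOrbitSystem_dvd_of_mem sys i
      rw [← hγ'2]
      exact γ'.2
    -- `m k = wᵢ`, `wᵢ ∣ m`, `m > 0` gives `k = 1`
    obtain ⟨c, hc⟩ := hdvd
    have hw := hwpos i
    have hck : c * k = 1 := by
      have : (w i : ℤ) * (c * k) = (w i : ℤ) * 1 := by
        rw [mul_one, ← mul_assoc, ← hc, hmk]
      exact mul_left_cancel₀ hw.ne' this
    have hk1 : (k : ℤ) = 1 ∨ (k : ℤ) = -1 := by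
      rcases Int.eq_one_or_neg_one_of_mul_eq_one' hck with ⟨-, h2⟩ | ⟨-, h2⟩
      · exact Or.inl h2
      · exact Or.inr h2
    rcases hk1 with h2 | h2
    · exact_mod_cast h2
    · have : (0 : ℤ) ≤ k := Int.natCast_nonneg k
      omega
  · -- existence and uniqueness of the cusp
    intro γ' hγ'
    obtain ⟨a, m, hm, ha⟩ := exists_conjT_of_isPosParabolic hγ'.1
    obtain ⟨⟨i, ⟨j, hjlt⟩⟩, hij, -⟩ := sys.2.2 ((a : SL(2, ℤ)) : SL(2, ℤ) ⧸ Γ)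
    simp only at hij
    have hg : a⁻¹ * (T ^ j * h i) ∈ Γ := QuotientGroup.eq.mp hij
    refine ⟨i, ⟨⟨a⁻¹ * (T ^ j * h i), hg⟩, ?_⟩, ?_⟩
    · -- `g γᵢ g⁻¹ = γ'`
      -- first `wᵢ ∣ m`
      have hmem : (h i)⁻¹ * T ^ m * h i ∈ Γ := by
        have : (h i)⁻¹ * T ^ m * h i =
            (a⁻¹ * (T ^ j * h i))⁻¹ * (a⁻¹ * T ^ m * a) * (a⁻¹ * (T ^ j * h i)) := by
          have h4 : (a⁻¹ * (T ^ j * h i))⁻¹ * (a⁻¹ * T ^ m * a) * (a⁻¹ * (T ^ j * h i)) =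
              (h i)⁻¹ * ((T ^ j)⁻¹ * T ^ m * T ^ j) * h i := by group
          rw [h4, ← zpow_natCast T j, ← zpow_neg, ← zpow_add, ← zpow_add]
          congr 3
          ring
        rw [this, ← ha]
        exact Γ.mul_mem (Γ.mul_mem (Γ.inv_mem hg) γ'.2) hg
      obtain ⟨c, hc⟩ := IsTOrbitSystem_dvd_of_mem sys i hmem
      have hw := hwpos i
      have hcpos : 0 < c := by
        by_contra hcon
        have : c ≤ 0 := not_lt.mp hcon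
        have : (w i : ℤ) * c ≤ 0 := mul_nonpos_of_nonneg_of_nonpos hw.le this
        omega
      -- the conjugate `g γᵢ g⁻¹`
      set g : Γ := ⟨a⁻¹ * (T ^ j * h i), hg⟩ with hgdef
      have hconj : ((g * γ i * g⁻¹ : Γ) : SL(2, ℤ)) = a⁻¹ * T ^ (w i : ℤ) * a := by
        rw [Subgroup.coe_mul, Subgroup.coe_mul, Subgroup.coe_inv, hγ i]
        show a⁻¹ * (T ^ j * h i) * ((h i)⁻¹ * T ^ (w i : ℤ) * h i) * (a⁻¹ * (T ^ j * h i))⁻¹ = _
        have h4 : a⁻¹ * (T ^ j * h i) * ((h i)⁻¹ * T ^ (w i : ℤ) * h i) * (a⁻¹ * (T ^ j * h i))⁻¹ =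
            a⁻¹ * (T ^ j * T ^ (w i : ℤ) * (T ^ j)⁻¹) * a := by group
        rw [h4, ← zpow_natCast T j, ← zpow_neg, ← zpow_add, ← zpow_add]
        congr 3
        ring
      have hpp : IsPosParabolic ((g * γ i * g⁻¹ : Γ) : SL(2, ℤ)) := by
        rw [hconj]
        exact isPosParabolic_conjT a hw
      have hpow : (g * γ i * g⁻¹) ^ c.toNat = γ' := by
        apply Subtype.ext
        rw [Subgroup.coe_pow, hconj, ha, hc, zpow_mul, ← zpow_natCast _ c.toNat,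
          Int.toNat_of_nonneg hcpos.le]
        have : a⁻¹ * T ^ (w i : ℤ) * a = a⁻¹ * T ^ (w i : ℤ) * a⁻¹⁻¹ := by rw [inv_inv]
        rw [this, conj_zpow, inv_inv]
      have hc1 := hγ'.2 _ _ hpp hpow
      rw [hc1, pow_one] at hpow
      exact hpow
    · -- uniqueness
      rintro i' ⟨g', hg'⟩
      -- `g' γᵢ' g'⁻¹ = γ' = a⁻¹ T^m a`
      have h5 : (g' : SL(2, ℤ)) * ((h i')⁻¹ * T ^ (w i' : ℤ) * h i') * (g' : SL(2, ℤ))⁻¹ =
          a⁻¹ * T ^ m * a := by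
        rw [← hγ i', ← ha, ← hg']
        simp only [Subgroup.coe_mul, Subgroup.coe_inv]
      have hcomm : (a * (g' : SL(2, ℤ)) * (h i')⁻¹) * T ^ (w i' : ℤ) =
          T ^ m * (a * (g' : SL(2, ℤ)) * (h i')⁻¹) := by
        have : T ^ m = a * (a⁻¹ * T ^ m * a) * a⁻¹ := by group
        rw [this, ← h5]; group
      obtain ⟨⟨n, hn⟩, -⟩ := eq_T_zpow_or_neg_of_comm hm.ne' hcomm
      -- `a g' = ± T^n hᵢ'`, so `a Γ = T^n hᵢ' Γ`
      have hcos : ((T ^ (j : ℤ) * h i : SL(2, ℤ)) : SL(2, ℤ) ⧸ Γ) =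
          ((T ^ n * h i' : SL(2, ℤ)) : SL(2, ℤ) ⧸ Γ) := by
        rw [zpow_natCast, ← hij, QuotientGroup.eq]
        rcases hn with hn | hn
        · have : a⁻¹ * (T ^ n * h i') = (g' : SL(2, ℤ)) := by
            rw [← hn]; group
          rw [this]
          exact g'.2
        · have : a⁻¹ * (T ^ n * h i') = -(g' : SL(2, ℤ)) := by
            have h6 : T ^ n = -(a * (g' : SL(2, ℤ)) * (h i')⁻¹) := by rw [hn, neg_neg]
            rw [h6, neg_mul, mul_neg]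
            congr 1
            group
          rw [this]
          have : -(g' : SL(2, ℤ)) = (-1 : SL(2, ℤ)) * g' := by rw [neg_mul, one_mul]
          rw [this]
          exact Γ.mul_mem hneg g'.2
      exact (IsTOrbitSystem_coset_inj sys hcos).1.symm

end Fermat.Agent.S41.H461
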